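import Mathlib
import Fermat.Agent.Red.Values

/-!
# Program B (BADRED), node B7.CF-b (part 1): values of residues at a branch

`O` a valuation subring of `F` with a residue homomorphism `res : O →+* L` onto (a subfield of) a
function field `L / k`, `Q` a place of `L / k`.

* `ValAt O res Q ε c` : `ε ∈ O` and the residue of `ε` is regular at `Q` with value `c`;
* closure properties: `ValAt.one`, `ValAt.mul`, `ValAt.inv`, `ValAt.zpow`, `ValAt.prod_zpow`
  (nonzero values), `ValAt.pow_zero_val` (a positive power of a function vanishing at `Q`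
  vanishes at `Q`), `ValAt.one_sub_mul` (`1 - d x` has the value `1` when `d` or `x` has the
  value `0`).
-/

set_option autoImplicit false

namespace Fermat.Agent.BR.Fact

open AlgebraicCurve Fermat.Agent.Red

section Basic

variable {k : Type*} [Field k] {L : Type*} [Field L] [Algebra k L]

theorem isValueAt_inv_of_ne {Q : Place k L} {h : L} {c : k} (hc : IsValueAt Q h c)
    (hc0 : c ≠ 0) : IsValueAt Q h⁻¹ c⁻¹ := by
  have h1 : Q.adicValuation h = 1 := hc.adicValuation_eq_one hc0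
  have hh0 : h ≠ 0 := by
    rintro rfl
    rw [map_zero] at h1
    exact zero_ne_one h1
  have hc' : algebraMap k L c ≠ 0 := (map_ne_zero _).mpr hc0
  have e : h⁻¹ - algebraMap k L c⁻¹ = -((h - algebraMap k L c) * (h⁻¹ * algebraMap k L c⁻¹)) := by
    rw [map_inv₀]
    field_simp
    ring
  rw [IsValueAt, e, Valuation.map_neg, map_mul, map_mul, map_inv₀, h1, inv_one, one_mul,
    adicValuation_algebraMap_of_ne_zero Q (inv_ne_zero hc0), mul_one]
  exact hc

theorem isValueAt_zpow_of_ne {Q : Place k L} {h : L} {c : k} (hc : IsValueAt Q h c)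
    (hc0 : c ≠ 0) (n : ℤ) : IsValueAt Q (h ^ n) (c ^ n) := by
  obtain ⟨m, rfl | rfl⟩ := n.eq_nat_or_neg
  · rw [zpow_natCast, zpow_natCast]
    exact hc.pow m
  · rw [zpow_neg, zpow_neg, zpow_natCast, zpow_natCast]
    exact isValueAt_inv_of_ne (hc.pow m) (pow_ne_zero m hc0)

theorem isValueAt_pow_zero {Q : Place k L} {h : L} (hc : IsValueAt Q h 0) {n : ℕ} (hn : n ≠ 0) :
    IsValueAt Q (h ^ n) 0 := by
  have := hc.pow n
  rwa [zero_pow hn] at this

theorem isValueAt_zero_of_ord_pos {Q : Place k L} {h : L} (hc : 0 < Q.ord h) :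
    IsValueAt Q h 0 := by
  rw [isValueAt_iff, map_zero, sub_zero]
  exact Or.inr hc

theorem ne_zero_of_isValueAt_ne {Q : Place k L} {h : L} {c : k} (hc : IsValueAt Q h c)
    (hc0 : c ≠ 0) : h ≠ 0 := by
  rintro rfl
  exact hc0 ((isValueAt_zero Q).unique hc).symm

end Basic

section ValAtDef

variable {k : Type*} [Field k] {F : Type*} [Field F] {L : Type*} [Field L] [Algebra k L]
  (O : ValuationSubring F) (res : O →+* L) (Q : Place k L)

/-- `ε ∈ O` and the residue of `ε` is regular at `Q` with value `c`. -/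
def ValAt (ε : F) (c : k) : Prop := ∃ h : ε ∈ O, IsValueAt Q (res ⟨ε, h⟩) c

variable {O res Q}

theorem ValAt.mem {ε : F} {c : k} (h : ValAt O res Q ε c) : ε ∈ O := h.1

theorem ValAt.isValueAt {ε : F} {c : k} (h : ValAt O res Q ε c) (hε : ε ∈ O) :
    IsValueAt Q (res ⟨ε, hε⟩) c := h.2

theorem ValAt.unique {ε : F} {c c' : k} (h : ValAt O res Q ε c) (h' : ValAt O res Q ε c') :
    c = c' := h.2.unique h'.2

theorem valAt_of_res_eq {ε : F} (hε : ε ∈ O) {x : L} (hx : res ⟨ε, hε⟩ = x) {c : k}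
    (hc : IsValueAt Q x c) : ValAt O res Q ε c := ⟨hε, by rw [hx]; exact hc⟩

theorem valAt_zero : ValAt O res Q (0 : F) 0 :=
  ⟨O.zero_mem, by
    have : (⟨0, O.zero_mem⟩ : O) = 0 := rfl
    rw [this, map_zero]; exact isValueAt_zero Q⟩

theorem valAt_one : ValAt O res Q (1 : F) 1 :=
  ⟨O.one_mem, by
    have : (⟨1, O.one_mem⟩ : O) = 1 := rfl
    rw [this, map_one]; exact isValueAt_one Q⟩

theorem ValAt.mul {ε ε' : F} {c c' : k} (h : ValAt O res Q ε c) (h' : ValAt O res Q ε' c') :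
    ValAt O res Q (ε * ε') (c * c') := by
  obtain ⟨h1, h2⟩ := h
  obtain ⟨h1', h2'⟩ := h'
  refine ⟨O.mul_mem _ _ h1 h1', ?_⟩
  have : (⟨ε * ε', O.mul_mem _ _ h1 h1'⟩ : O) = ⟨ε, h1⟩ * ⟨ε', h1'⟩ := rfl
  rw [this, map_mul]
  exact h2.mul h2'

theorem ValAt.sub {ε ε' : F} {c c' : k} (h : ValAt O res Q ε c) (h' : ValAt O res Q ε' c') :
    ValAt O res Q (ε - ε') (c - c') := by
  obtain ⟨h1, h2⟩ := h
  obtain ⟨h1', h2'⟩ := h'
  refine ⟨sub_mem h1 h1', ?_⟩
  have : (⟨ε - ε', sub_mem h1 h1'⟩ : O) = ⟨ε, h1⟩ - ⟨ε', h1'⟩ := rfl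
  rw [this, map_sub]
  exact h2.sub h2'

theorem ValAt.pow {ε : F} {c : k} (h : ValAt O res Q ε c) (n : ℕ) :
    ValAt O res Q (ε ^ n) (c ^ n) := by
  induction n with
  | zero => simpa using valAt_one (O := O) (res := res) (Q := Q)
  | succ n ih => rw [pow_succ, pow_succ]; exact ih.mul h

theorem ValAt.pow_zero_val {ε : F} (h : ValAt O res Q ε 0) {n : ℕ} (hn : n ≠ 0) :
    ValAt O res Q (ε ^ n) 0 := by
  have := h.pow n
  rwa [zero_pow hn] at this

/-- the residue of an element with a nonzero value is nonzero -/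
theorem ValAt.res_ne_zero {ε : F} {c : k} (h : ValAt O res Q ε c) (hc : c ≠ 0) :
    res ⟨ε, h.mem⟩ ≠ 0 := ne_zero_of_isValueAt_ne h.2 hc

theorem ValAt.ord_eq_zero {ε : F} {c : k} (h : ValAt O res Q ε c) (hc : c ≠ 0) :
    Q.ord (res ⟨ε, h.mem⟩) = 0 := h.2.ord_eq_zero hc

/-- inverse of an element of `O` with nonzero residue -/
theorem inv_mem_of_res_ne_zero (hres : ∀ x : O, res x = 0 ↔ ¬ IsUnit x) {ε : F} (hε : ε ∈ O)
    (h0 : res ⟨ε, hε⟩ ≠ 0) :
    ∃ h' : ε⁻¹ ∈ O, res ⟨ε⁻¹, h'⟩ = (res ⟨ε, hε⟩)⁻¹ := by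
  have hu : IsUnit (⟨ε, hε⟩ : O) := by
    by_contra hnu
    exact h0 ((hres _).mpr hnu)
  obtain ⟨v, hv⟩ := hu
  have h1 : ((v⁻¹ : Oˣ) : O) * ⟨ε, hε⟩ = 1 := by rw [← hv]; exact v.inv_mul
  have h2 : (((v⁻¹ : Oˣ) : O) : F) * ε = 1 := by
    have := congrArg (fun x : O => (x : F)) h1
    simpa using this
  have h3 : ε⁻¹ = (((v⁻¹ : Oˣ) : O) : F) := (eq_inv_of_mul_eq_one_left h2).symm
  have h' : ε⁻¹ ∈ O := by rw [h3]; exact ((v⁻¹ : Oˣ) : O).2
  refine ⟨h', ?_⟩
  have h4 : (⟨ε⁻¹, h'⟩ : O) = ((v⁻¹ : Oˣ) : O) := Subtype.ext h3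
  rw [h4]
  have h5 := congrArg res h1
  rw [map_mul, map_one] at h5
  exact eq_inv_of_mul_eq_one_left h5

theorem ValAt.inv (hres : ∀ x : O, res x = 0 ↔ ¬ IsUnit x) {ε : F} {c : k}
    (h : ValAt O res Q ε c) (hc : c ≠ 0) : ValAt O res Q ε⁻¹ c⁻¹ := by
  obtain ⟨h', hr⟩ := inv_mem_of_res_ne_zero hres h.mem (h.res_ne_zero hc)
  exact ⟨h', by rw [hr]; exact isValueAt_inv_of_ne h.2 hc⟩

theorem ValAt.zpow (hres : ∀ x : O, res x = 0 ↔ ¬ IsUnit x) {ε : F} {c : k}
    (h : ValAt O res Q ε c) (hc : c ≠ 0) (n : ℤ) : ValAt O res Q (ε ^ n) (c ^ n) := by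
  obtain ⟨m, rfl | rfl⟩ := n.eq_nat_or_neg
  · rw [zpow_natCast, zpow_natCast]
    exact h.pow m
  · rw [zpow_neg, zpow_neg, zpow_natCast, zpow_natCast]
    exact (h.pow m).inv hres (pow_ne_zero m hc)

theorem ValAt.prod_zpow (hres : ∀ x : O, res x = 0 ↔ ¬ IsUnit x) {ι : Type*} (s : Finset ι)
    (f : ι → F) (g : ι → k) (n : ι → ℤ) (h : ∀ i ∈ s, ValAt O res Q (f i) (g i))
    (hg : ∀ i ∈ s, g i ≠ 0) :
    ValAt O res Q (∏ i ∈ s, f i ^ n i) (∏ i ∈ s, g i ^ n i) := by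
  classical
  induction s using Finset.induction_on with
  | empty => simpa using valAt_one (O := O) (res := res) (Q := Q)
  | insert i s hi ih =>
    rw [Finset.prod_insert hi, Finset.prod_insert hi]
    exact ((h i (Finset.mem_insert_self i s)).zpow hres (hg i (Finset.mem_insert_self i s))
      (n i)).mul (ih (fun j hj => h j (Finset.mem_insert_of_mem hj))
        (fun j hj => hg j (Finset.mem_insert_of_mem hj)))

/-- a product of elements with the value `1` has the value `1` -/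
theorem ValAt.prod_zpow_one (hres : ∀ x : O, res x = 0 ↔ ¬ IsUnit x) {ι : Type*} (s : Finset ι)
    (f : ι → F) (n : ι → ℤ) (h : ∀ i ∈ s, ValAt O res Q (f i) 1) :
    ValAt O res Q (∏ i ∈ s, f i ^ n i) 1 := by
  have := ValAt.prod_zpow hres s f (fun _ => (1 : k)) n h (fun _ _ => one_ne_zero)
  simpa using this

/-- a positive integral power of an element with the value `0` has the value `0` -/
theorem ValAt.zpow_zero_val {ε : F} (h : ValAt O res Q ε 0) {n : ℤ} (hn : 0 < n) :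
    ValAt O res Q (ε ^ n) 0 := by
  obtain ⟨m, rfl⟩ := Int.eq_ofNat_of_zero_le hn.le
  rw [zpow_natCast]
  exact h.pow_zero_val (by omega)

end ValAtDef

end Fermat.Agent.BR.Fact
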