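import Mathlib
import Fermat.Agent.BR.Fact.ValAt

/-!
# Program B (BADRED), node B7.CF-b (part 2): a component at a gauge of an annulus, normal forms

`A` a valuation subring of `K` with residue field `k`, `F / K` a function field, `u : F` the
coordinate of an annulus, `a : K` a gauge, `O` a valuation subring of `F` with a residue
homomorphism `res : O →+* L` (`L / k` a function field).

* `GaugeComp A u a O res` : `O` restricts to `A` on the constants (compatibly with the residue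
  maps), elements with nonzero residue are units, and `t := a⁻¹ u ∈ O`; `G.T := res t`.
  [The original components of a crossing are gauge components with `a = 1` (on `src`) and
  `a = thick` (on `tgt`); the exceptional component at the position `|a|` is a gauge component
  with `T = X`.]
* A place `Q` of `L` is an *inner branch* if `0 < Q.ord T` and an *outer branch* if `Q.ord T < 0`.
* `inner_nf` / `outer_nf` : **normal form at a branch** of a function
  `y = c u^b ∏ (u - c_P)^(n_P) ε` (`ε` with value `1` at the branch):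
  `y = κ t^m ε₁` with `ε₁` of value `1` at the branch, `m = b + ∑_{|c_P| < |a|} n_P`
  (resp. `≤` at an outer branch) and `κ = c a^m ∏_{other P} (- c_P)^(n_P)`.
* `nf_mem_iff`, `valAt_nf_*` : membership in `O` and the value of the residue at the branch, read
  off from the normal form.
-/

set_option autoImplicit false

namespace Fermat.Agent.BR.Fact

open AlgebraicCurve IsLocalRing Fermat.Agent.Red

theorem prod_zpow_eq_zpow_sum₀ {G : Type*} [CommGroupWithZero G] {ι : Type*} (s : Finset ι)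
    {x : G} (hx : x ≠ 0) (f : ι → ℤ) : ∏ i ∈ s, x ^ f i = x ^ ∑ i ∈ s, f i := by
  classical
  induction s using Finset.induction_on with
  | empty => simp
  | insert i s hi ih => rw [Finset.prod_insert hi, Finset.sum_insert hi, ih, zpow_add₀ hx]

variable {K : Type*} [Field K] (A : ValuationSubring K) {F : Type*} [Field F] [Algebra K F]
  {L : Type*} [Field L] [Algebra (ResidueField A) L]

/-- A component at the gauge `a` of the annulus with coordinate `u`. -/
structure GaugeComp (u : F) (a : K) (O : ValuationSubring F) (res : O →+* L) : Prop where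
  a_ne : a ≠ 0
  res_eq_zero_iff : ∀ x : O, res x = 0 ↔ ¬ IsUnit x
  const_mem : ∀ c : K, algebraMap K F c ∈ O ↔ c ∈ A
  const_res : ∀ (c : K) (hc : c ∈ A) (hc' : algebraMap K F c ∈ O),
    res ⟨algebraMap K F c, hc'⟩ = algebraMap (ResidueField A) L (residue A ⟨c, hc⟩)
  coord_mem : a⁻¹ • u ∈ O

namespace GaugeComp

variable {A}

theorem residue_eq_zero_of_lt {c : K} (hc : A.valuation c < 1) :
    ∃ h : c ∈ A, residue A ⟨c, h⟩ = 0 := by
  have h : c ∈ A := (A.valuation_le_one_iff c).mp hc.le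
  refine ⟨h, ?_⟩
  rw [residue_eq_zero_iff]
  exact (A.valuation_lt_one_iff _).mpr hc

theorem mem_A_of_le {c d : K} (hd : d ≠ 0) (h : A.valuation c ≤ A.valuation d) : c / d ∈ A := by
  rw [← A.valuation_le_one_iff, map_div₀]
  exact div_le_one_of_le₀ h zero_le

theorem valuation_div_lt_one {c d : K} (hd : d ≠ 0) (h : A.valuation c < A.valuation d) :
    A.valuation (c / d) < 1 := by
  rw [map_div₀]
  exact (div_lt_one₀ (zero_lt_iff.mpr ((A.valuation.ne_zero_iff).mpr hd))).mpr h

variable {u : F} {a : K} {O : ValuationSubring F} {res : O →+* L}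
  (G : GaugeComp A u a O res)

include G

/-- the residue of the normalised coordinate `a⁻¹ u` -/
def T : L := res ⟨a⁻¹ • u, G.coord_mem⟩

theorem mem_of_mem {c : K} (hc : c ∈ A) : algebraMap K F c ∈ O := (G.const_mem c).mpr hc

theorem valAt_const (Q : Place (ResidueField A) L) {c : K} (hc : c ∈ A) :
    ValAt O res Q (algebraMap K F c) (residue A ⟨c, hc⟩) :=
  ⟨G.mem_of_mem hc, by rw [G.const_res c hc]; exact isValueAt_algebraMap Q _⟩

theorem res_const_of_lt {c : K} (hc : A.valuation c < 1) :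
    ∃ h : algebraMap K F c ∈ O, res ⟨algebraMap K F c, h⟩ = 0 := by
  obtain ⟨h, h0⟩ := residue_eq_zero_of_lt hc
  exact ⟨G.mem_of_mem h, by rw [G.const_res c h, h0, map_zero]⟩

theorem valAt_const_of_lt (Q : Place (ResidueField A) L) {c : K} (hc : A.valuation c < 1) :
    ValAt O res Q (algebraMap K F c) 0 := by
  obtain ⟨h, h0⟩ := residue_eq_zero_of_lt hc
  have := G.valAt_const Q h
  rwa [h0] at this

/-! ### the normalised coordinate -/

theorem u_ne_zero (hT : G.T ≠ 0) : u ≠ 0 := by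
  rintro rfl
  apply hT
  have : (⟨a⁻¹ • (0 : F), G.coord_mem⟩ : O) = 0 := Subtype.ext (smul_zero _)
  unfold T
  rw [this, map_zero]

theorem t_inv_eq (hu : u ≠ 0) : (a⁻¹ • u)⁻¹ = a • u⁻¹ := by
  have ha := G.a_ne
  rw [Algebra.smul_def, Algebra.smul_def, mul_inv, map_inv₀, inv_inv]

theorem t_inv_mem (hT : G.T ≠ 0) : ∃ h : (a⁻¹ • u)⁻¹ ∈ O, res ⟨(a⁻¹ • u)⁻¹, h⟩ = G.T⁻¹ :=
  inv_mem_of_res_ne_zero G.res_eq_zero_iff G.coord_mem hT

theorem t_zpow_mem (hT : G.T ≠ 0) (m : ℤ) : (a⁻¹ • u) ^ m ∈ O := by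
  obtain ⟨n, rfl | rfl⟩ := m.eq_nat_or_neg
  · rw [zpow_natCast]; exact pow_mem G.coord_mem n
  · rw [zpow_neg, zpow_natCast, ← inv_pow]; exact pow_mem (G.t_inv_mem hT).1 n

theorem t_zpow_inv_mem (hT : G.T ≠ 0) (m : ℤ) : ((a⁻¹ • u) ^ m)⁻¹ ∈ O := by
  rw [← zpow_neg]; exact G.t_zpow_mem hT _

/-- at an inner branch the normalised coordinate has the value `0` -/
theorem valAt_t_zero {Q : Place (ResidueField A) L} (hQ : 0 < Q.ord G.T) :
    ValAt O res Q (a⁻¹ • u) 0 := ⟨G.coord_mem, isValueAt_zero_of_ord_pos hQ⟩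

theorem T_ne_zero_of_ord_ne {Q : Place (ResidueField A) L} (hQ : Q.ord G.T ≠ 0) : G.T ≠ 0 := by
  intro h
  rw [h, Place.ord_zero] at hQ
  exact hQ rfl

/-- at an outer branch the inverse of the normalised coordinate has the value `0` -/
theorem valAt_t_inv_zero {Q : Place (ResidueField A) L} (hQ : Q.ord G.T < 0) :
    ValAt O res Q (a⁻¹ • u)⁻¹ 0 := by
  obtain ⟨h, hr⟩ := G.t_inv_mem (G.T_ne_zero_of_ord_ne hQ.ne)
  refine ⟨h, ?_⟩
  rw [hr]
  apply isValueAt_zero_of_ord_pos
  rw [Place.ord_inv]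
  omega

/-! ### units with the value one at a branch -/

theorem valAt_one_sub_of_lt (Q : Place (ResidueField A) L) {d : K} (hd : A.valuation d < 1)
    {x : F} (hx : x ∈ O) : ValAt O res Q (1 - d • x) 1 := by
  obtain ⟨h, h0⟩ := G.res_const_of_lt hd
  have hm : d • x ∈ O := by rw [Algebra.smul_def]; exact O.mul_mem _ _ h hx
  refine ⟨sub_mem O.one_mem hm, ?_⟩
  have e : (⟨1 - d • x, sub_mem O.one_mem hm⟩ : O) = 1 - ⟨algebraMap K F d, h⟩ * ⟨x, hx⟩ :=
    Subtype.ext (by simp [Algebra.smul_def])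
  rw [e, map_sub, map_one, map_mul, h0, zero_mul, sub_zero]
  exact isValueAt_one Q

theorem valAt_one_sub_of_val {Q : Place (ResidueField A) L} {d : K} (hd : d ∈ A)
    {x : F} (hx : ValAt O res Q x 0) : ValAt O res Q (1 - d • x) 1 := by
  have h1 := (G.valAt_const Q hd).mul hx
  rw [mul_zero, ← Algebra.smul_def] at h1
  have h2 := (valAt_one (O := O) (res := res) (Q := Q)).sub h1
  rwa [sub_zero] at h2

/-- (i1) inner branch, `|c₀| < |a|` -/
theorem valAt_inner_lt {Q : Place (ResidueField A) L} (hQ : 0 < Q.ord G.T) {c₀ : K}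
    (h : A.valuation c₀ < A.valuation a) : ValAt O res Q (1 - c₀ • u⁻¹) 1 := by
  have hT := G.T_ne_zero_of_ord_ne hQ.ne'
  have hu := G.u_ne_zero hT
  have e : c₀ • u⁻¹ = (c₀ / a) • (a⁻¹ • u)⁻¹ := by
    rw [G.t_inv_eq hu, smul_smul, div_mul_cancel₀ _ G.a_ne]
  rw [e]
  exact G.valAt_one_sub_of_lt Q (valuation_div_lt_one G.a_ne h) (G.t_inv_mem hT).1

/-- (i2) inner branch, `|a| ≤ |c₀|` -/
theorem valAt_inner_ge {Q : Place (ResidueField A) L} (hQ : 0 < Q.ord G.T) {c₀ : K}
    (hc₀ : c₀ ≠ 0) (h : A.valuation a ≤ A.valuation c₀) : ValAt O res Q (1 - c₀⁻¹ • u) 1 := by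
  have e : c₀⁻¹ • u = (a / c₀) • (a⁻¹ • u) := by
    rw [smul_smul, div_mul_eq_mul_div, mul_inv_cancel₀ G.a_ne, one_div]
  rw [e]
  exact G.valAt_one_sub_of_val (mem_A_of_le hc₀ h) (G.valAt_t_zero hQ)

/-- (o1) outer branch, `|c₀| ≤ |a|` -/
theorem valAt_outer_le {Q : Place (ResidueField A) L} (hQ : Q.ord G.T < 0) {c₀ : K}
    (h : A.valuation c₀ ≤ A.valuation a) : ValAt O res Q (1 - c₀ • u⁻¹) 1 := by
  have hT := G.T_ne_zero_of_ord_ne hQ.ne
  have hu := G.u_ne_zero hT
  have e : c₀ • u⁻¹ = (c₀ / a) • (a⁻¹ • u)⁻¹ := by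
    rw [G.t_inv_eq hu, smul_smul, div_mul_cancel₀ _ G.a_ne]
  rw [e]
  exact G.valAt_one_sub_of_val (mem_A_of_le G.a_ne h) (G.valAt_t_inv_zero hQ)

/-- (o2) outer branch, `|a| < |c₀|` -/
theorem valAt_outer_gt (Q : Place (ResidueField A) L) {c₀ : K}
    (h : A.valuation a < A.valuation c₀) : ValAt O res Q (1 - c₀⁻¹ • u) 1 := by
  have hc₀ : c₀ ≠ 0 := by
    rintro rfl
    rw [map_zero] at h
    exact not_lt_zero h
  have e : c₀⁻¹ • u = (a / c₀) • (a⁻¹ • u) := by
    rw [smul_smul, div_mul_eq_mul_div, mul_inv_cancel₀ G.a_ne, one_div]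
  rw [e]
  exact G.valAt_one_sub_of_lt Q (valuation_div_lt_one hc₀ h) G.coord_mem

/-! ### normal forms -/

theorem smul_zpow_mul (m : ℤ) : algebraMap K F (a ^ m) * (a⁻¹ • u) ^ m = u ^ m := by
  have ha : algebraMap K F a ≠ 0 := (map_ne_zero _).mpr G.a_ne
  rw [Algebra.smul_def, mul_zpow, map_zpow₀, map_inv₀, inv_zpow, ← mul_assoc,
    mul_inv_cancel₀ (zpow_ne_zero _ ha), one_mul]

/-- generic normal form: `p` selects the roots which are "inside" -/
theorem nf_generic {Q : Place (ResidueField A) L} (hT : G.T ≠ 0) {ι' : Type*} (s : Finset ι')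
    (cc : ι' → K) (n : ι' → ℤ) (p : ι' → Prop) [DecidablePred p]
    (hin : ∀ P ∈ s, p P → ValAt O res Q (1 - cc P • u⁻¹) 1)
    (hout : ∀ P ∈ s, ¬ p P → cc P ≠ 0 ∧ ValAt O res Q (1 - (cc P)⁻¹ • u) 1)
    (b : ℤ) (c : K) {ε : F} (hε : ValAt O res Q ε 1) :
    ∃ ε₁ : F, ValAt O res Q ε₁ 1 ∧
      algebraMap K F c * u ^ b * (∏ P ∈ s, (u - algebraMap K F (cc P)) ^ n P) * ε =
        algebraMap K F (c * a ^ (b + ∑ P ∈ s, if p P then n P else 0) *
          ∏ P ∈ s, if p P then 1 else (-cc P) ^ n P) *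
        (a⁻¹ • u) ^ (b + ∑ P ∈ s, if p P then n P else 0) * ε₁ := by
  have hu := G.u_ne_zero hT
  set e : ι' → F := fun P => if p P then 1 - cc P • u⁻¹ else 1 - (cc P)⁻¹ • u with he
  have hev : ∀ P ∈ s, ValAt O res Q (e P) 1 := by
    intro P hP
    by_cases hp : p P
    · simp only [he, if_pos hp]; exact hin P hP hp
    · simp only [he, if_neg hp]; exact (hout P hP hp).2
  refine ⟨ε * ∏ P ∈ s, e P ^ n P, ?_, ?_⟩
  · have := hε.mul (ValAt.prod_zpow_one G.res_eq_zero_iff s e n hev)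
    rwa [mul_one] at this
  · have hfac : ∀ P ∈ s, (u - algebraMap K F (cc P)) ^ n P =
        (u ^ (if p P then n P else 0) *
          algebraMap K F (if p P then 1 else (-cc P) ^ n P)) * e P ^ n P := by
      intro P hP
      by_cases hp : p P
      · simp only [he, if_pos hp, map_one, mul_one]
        rw [← mul_zpow]
        congr 1
        rw [mul_sub, mul_one, mul_smul_comm, mul_inv_cancel₀ hu, Algebra.smul_def, mul_one]
      · have hc0 := (hout P hP hp).1
        simp only [he, if_neg hp, zpow_zero, one_mul]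
        rw [map_zpow₀, ← mul_zpow]
        congr 1
        rw [mul_sub, mul_one, mul_smul_comm, Algebra.smul_def, map_neg, map_inv₀]
        have : algebraMap K F (cc P) ≠ 0 := (map_ne_zero _).mpr hc0
        field_simp
        ring
    rw [Finset.prod_congr rfl hfac, Finset.prod_mul_distrib, Finset.prod_mul_distrib,
      prod_zpow_eq_zpow_sum₀ s hu, ← map_prod]
    set Sg := ∑ P ∈ s, if p P then n P else 0
    set Pg := ∏ P ∈ s, if p P then 1 else (-cc P) ^ n P
    have h1 := G.smul_zpow_mul (b + Sg)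
    rw [zpow_add₀ hu] at h1
    rw [map_mul, map_mul]
    linear_combination (-(algebraMap K F c * algebraMap K F Pg * (∏ P ∈ s, e P ^ n P) * ε)) * h1

/-- **normal form at an inner branch** -/
theorem inner_nf {Q : Place (ResidueField A) L} (hQ : 0 < Q.ord G.T) {ι' : Type*}
    (s : Finset ι') (cc : ι' → K) (n : ι' → ℤ) (hcc : ∀ P ∈ s, cc P ≠ 0) (b : ℤ) (c : K) {ε : F}
    (hε : ValAt O res Q ε 1) :
    ∃ ε₁ : F, ValAt O res Q ε₁ 1 ∧
      algebraMap K F c * u ^ b * (∏ P ∈ s, (u - algebraMap K F (cc P)) ^ n P) * ε =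
        algebraMap K F (c *
          a ^ (b + ∑ P ∈ s, if A.valuation (cc P) < A.valuation a then n P else 0) *
          ∏ P ∈ s, if A.valuation (cc P) < A.valuation a then 1 else (-cc P) ^ n P) *
        (a⁻¹ • u) ^ (b + ∑ P ∈ s, if A.valuation (cc P) < A.valuation a then n P else 0) *
        ε₁ := by
  classical
  exact G.nf_generic (G.T_ne_zero_of_ord_ne hQ.ne') s cc n
    (fun P => A.valuation (cc P) < A.valuation a)
    (fun P _ hp => G.valAt_inner_lt hQ hp)
    (fun P hP hp => ⟨hcc P hP, G.valAt_inner_ge hQ (hcc P hP) (not_lt.mp hp)⟩) b c hε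

/-- **normal form at an outer branch** -/
theorem outer_nf {Q : Place (ResidueField A) L} (hQ : Q.ord G.T < 0) {ι' : Type*}
    (s : Finset ι') (cc : ι' → K) (n : ι' → ℤ) (b : ℤ) (c : K) {ε : F}
    (hε : ValAt O res Q ε 1) :
    ∃ ε₁ : F, ValAt O res Q ε₁ 1 ∧
      algebraMap K F c * u ^ b * (∏ P ∈ s, (u - algebraMap K F (cc P)) ^ n P) * ε =
        algebraMap K F (c *
          a ^ (b + ∑ P ∈ s, if A.valuation (cc P) ≤ A.valuation a then n P else 0) *
          ∏ P ∈ s, if A.valuation (cc P) ≤ A.valuation a then 1 else (-cc P) ^ n P) *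
        (a⁻¹ • u) ^ (b + ∑ P ∈ s, if A.valuation (cc P) ≤ A.valuation a then n P else 0) *
        ε₁ := by
  classical
  refine G.nf_generic (G.T_ne_zero_of_ord_ne hQ.ne) s cc n
    (fun P => A.valuation (cc P) ≤ A.valuation a)
    (fun P _ hp => G.valAt_outer_le hQ hp)
    (fun P _ hp => ?_) b c hε
  have hlt : A.valuation a < A.valuation (cc P) := not_le.mp hp
  refine ⟨?_, G.valAt_outer_gt Q hlt⟩
  rintro h0
  rw [h0, map_zero] at hlt
  exact not_lt_zero hlt

end GaugeComp

end Fermat.Agent.BR.Fact
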