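import Mathlib

/-!
# Program B (BADRED), node B7.CF-b (part 3): slopes of the generic size on a sub-annulus

Pure ordered-group lemmas (`Γ₀` a linearly ordered commutative group with zero).

For a function without poles on the open sub-annulus `ρ < |u| < ρ'` the generic sizes `x` (radius
`ρ`) and `x'` (radius `ρ'`) are related by `x' = x R^m M`, `R = ρ'/ρ > 1`, where `m` is the slope
just outside the radius `ρ`, `m + N` the slope just inside the radius `ρ'`, `N ≥ 0` the number of
zeros in between, and `1 ≤ M ≤ R^N`, strictly if `0 < N` (`Good R M N`).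

* `Good`, `good_one`, `Good.mul`, `good_prod`, `good_zpow`;
* `slope_a` … `slope_d` : the four consequences (convexity of the Newton polygon) used for
  `node_match` / `node_unit` on a sub-annulus.
-/

set_option autoImplicit false

namespace Fermat.Agent.BR.Fact

variable {Γ₀ : Type*} [LinearOrderedCommGroupWithZero Γ₀]

/-- `f` lies between `1` and `R ^ g`, strictly if `0 < g`. -/
def Good (R f : Γ₀) (g : ℤ) : Prop :=
  1 ≤ f ∧ f ≤ R ^ g ∧ 0 ≤ g ∧ (0 < g → 1 < f ∧ f < R ^ g)

theorem good_one (R : Γ₀) : Good R 1 0 :=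
  ⟨le_rfl, by rw [zpow_zero], le_rfl, fun h => absurd h (lt_irrefl _)⟩

theorem Good.mul {R f f' : Γ₀} {g g' : ℤ} (hR : 1 < R) (h : Good R f g) (h' : Good R f' g') :
    Good R (f * f') (g + g') := by
  have hR0 : R ≠ 0 := (zero_lt_one.trans hR).ne'
  obtain ⟨h1, h2, h3, h4⟩ := h
  obtain ⟨h1', h2', h3', h4'⟩ := h'
  have hf0 : f ≠ 0 := (zero_lt_one.trans_le h1).ne'
  have hf'0 : f' ≠ 0 := (zero_lt_one.trans_le h1').ne'
  refine ⟨one_le_mul_of_one_le_of_one_le h1 h1', ?_, by omega, ?_⟩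
  · rw [zpow_add₀ hR0]; exact mul_le_mul' h2 h2'
  · intro hpos
    rw [zpow_add₀ hR0]
    rcases lt_or_ge 0 g with hg | hg
    · obtain ⟨h5, h6⟩ := h4 hg
      refine ⟨one_lt_mul_of_lt_of_le' h5 h1', ?_⟩
      calc f * f' < R ^ g * f' := mul_lt_mul_of_pos_right h6 (zero_lt_iff.mpr hf'0)
        _ ≤ R ^ g * R ^ g' := mul_le_mul' le_rfl h2'
    · have hg' : 0 < g' := by omega
      obtain ⟨h5, h6⟩ := h4' hg'
      refine ⟨?_, ?_⟩
      · rw [mul_comm]; exact one_lt_mul_of_lt_of_le' h5 h1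
      · calc f * f' ≤ R ^ g * f' := mul_le_mul' h2 le_rfl
          _ < R ^ g * R ^ g' := by
            rw [mul_comm (R ^ g), mul_comm (R ^ g)]
            exact mul_lt_mul_of_pos_right h6 (zero_lt_iff.mpr (zpow_ne_zero _ hR0))

theorem good_prod {R : Γ₀} (hR : 1 < R) {ι : Type*} (s : Finset ι) (f : ι → Γ₀) (g : ι → ℤ)
    (h : ∀ i ∈ s, Good R (f i) (g i)) : Good R (∏ i ∈ s, f i) (∑ i ∈ s, g i) := by
  classical
  induction s using Finset.induction_on with
  | empty => simpa using good_one R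
  | insert i s hi ih =>
    rw [Finset.prod_insert hi, Finset.sum_insert hi]
    exact (h i (Finset.mem_insert_self i s)).mul hR
      (ih fun j hj => h j (Finset.mem_insert_of_mem hj))

theorem good_zpow {R q : Γ₀} (hq : 1 < q) (hqR : q < R) {n : ℤ} (hn : 0 ≤ n) :
    Good R (q ^ n) n := by
  obtain ⟨k, rfl⟩ := Int.eq_ofNat_of_zero_le hn
  unfold Good
  simp only [zpow_natCast]
  refine ⟨one_le_pow₀ hq.le, pow_le_pow_left' hqR.le k, hn, fun hk => ?_⟩
  have hk' : k ≠ 0 := by
    rintro rfl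
    simp at hk
  exact ⟨one_lt_pow₀ hq hk', pow_lt_pow_left₀ hqR zero_le hk'⟩

section Slope

variable {R x x' M : Γ₀} {m N : ℤ}

theorem zpow_lt_one_iff_neg (hR : 1 < R) : R ^ m < 1 ↔ m < 0 := by
  rw [← zpow_zero R, zpow_lt_zpow_iff_right₀ hR]

theorem one_le_zpow_iff_nonneg (hR : 1 < R) : 1 ≤ R ^ m ↔ 0 ≤ m := by
  rw [← zpow_zero R, zpow_le_zpow_iff_right₀ hR]

/-- (a) the outer size is `< 1`, the inner size is `1`: negative slope at the inner radius -/
theorem slope_a (hR : 1 < R) (hM : Good R M N) (h : x' = x * R ^ m * M) (hx' : x' < 1)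
    (hx : x = 1) : m < 0 := by
  rw [hx, one_mul] at h
  rw [← zpow_lt_one_iff_neg hR]
  calc R ^ m = R ^ m * 1 := (mul_one _).symm
    _ ≤ R ^ m * M := mul_le_mul' le_rfl hM.1
    _ = x' := h.symm
    _ < 1 := hx'

/-- (b) the outer size is `1`: nonnegative slope at the outer radius -/
theorem slope_b (hR : 1 < R) (hM : Good R M N) (h : x' = x * R ^ m * M) (hx' : x' = 1)
    (hx : x ≤ 1) : 0 ≤ m + N := by
  have hR0 : R ≠ 0 := (zero_lt_one.trans hR).ne'
  rw [← one_le_zpow_iff_nonneg hR, zpow_add₀ hR0]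
  calc (1 : Γ₀) = x * R ^ m * M := by rw [← h, hx']
    _ ≤ 1 * R ^ m * R ^ N := mul_le_mul' (mul_le_mul' hx le_rfl) hM.2.1
    _ = R ^ m * R ^ N := by rw [one_mul]

/-- (c) both sizes are `1` and the slope at the outer radius is positive: negative slope at the
inner radius -/
theorem slope_c (hR : 1 < R) (hM : Good R M N) (h : x' = x * R ^ m * M) (hx' : x' = 1)
    (hx : x = 1) (hpos : 0 < m + N) : m < 0 := by
  by_contra hm
  replace hm : 0 ≤ m := not_lt.mp hm
  rw [hx, hx', one_mul] at h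
  have h1 : 1 ≤ R ^ m := (one_le_zpow_iff_nonneg hR).mpr hm
  have h2 : R ^ m = 1 := by
    apply le_antisymm _ h1
    calc R ^ m = R ^ m * 1 := (mul_one _).symm
      _ ≤ R ^ m * M := mul_le_mul' le_rfl hM.1
      _ = 1 := h.symm
  have h3 : M = 1 := by rw [h2, one_mul] at h; exact h.symm
  have hm0 : m = 0 := by
    apply le_antisymm _ hm
    by_contra hlt
    replace hlt : 0 < m := not_le.mp hlt
    have := one_lt_zpow₀ hR hlt
    rw [h2] at this
    exact lt_irrefl _ this
  have hN : 0 < N := by omega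
  have := (hM.2.2.2 hN).1
  rw [h3] at this
  exact lt_irrefl _ this

/-- (d) the outer size is `1` and the slope at the outer radius is `0`: the inner size is `1` and
there are no zeros in between -/
theorem slope_d (hR : 1 < R) (hM : Good R M N) (h : x' = x * R ^ m * M) (hx' : x' = 1)
    (hx : x ≤ 1) (hzero : m + N = 0) : x = 1 ∧ N = 0 ∧ m = 0 := by
  have hR0 : R ≠ 0 := (zero_lt_one.trans hR).ne'
  have hRmN : R ^ m * R ^ N = 1 := by rw [← zpow_add₀ hR0, hzero, zpow_zero]
  have h1 : (1 : Γ₀) ≤ x := by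
    calc (1 : Γ₀) = x * R ^ m * M := by rw [← h, hx']
      _ ≤ x * R ^ m * R ^ N := mul_le_mul' le_rfl hM.2.1
      _ = x := by rw [mul_assoc, hRmN, mul_one]
  have hx1 : x = 1 := le_antisymm hx h1
  have hN : N = 0 := by
    by_contra hne
    have hN : 0 < N := lt_of_le_of_ne hM.2.2.1 (Ne.symm hne)
    have h2 := (hM.2.2.2 hN).2
    have h3 : R ^ m * M < R ^ m * R ^ N := by
      rw [mul_comm (R ^ m), mul_comm (R ^ m)]
      exact mul_lt_mul_of_pos_right h2 (zero_lt_iff.mpr (zpow_ne_zero _ hR0))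
    rw [hRmN] at h3
    rw [hx1, hx', one_mul] at h
    rw [← h] at h3
    exact lt_irrefl _ h3
  exact ⟨hx1, hN, by omega⟩

end Slope

end Fermat.Agent.BR.Fact
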