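import Mathlib
import Fermat.Agent.BR.Fact.Slope

/-!
# Program B (BADRED), node B7.CF-b (part 4): the generic sizes at two radii

`Γ₀` a linearly ordered commutative group with zero, `v P ∈ Γ₀` the absolute values of the roots,
`n P` their multiplicities, `ρ < ρ'` two radii.  The generic size at the outer radius `ρ'`
(written in the form of the inner normal form, roots `< ρ'` inside) is the generic size at the
inner radius `ρ` (outer normal form, roots `≤ ρ` inside) times `(ρ'/ρ)^m M`, with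
`M = ∏_{ρ < v P < ρ'} (ρ'/v P)^(n P)` (`ratio_identity`), and `M` is `Good` (`good_mid`) when the
multiplicities of the roots in between are nonnegative.
-/

set_option autoImplicit false

namespace Fermat.Agent.BR.Fact

variable {Γ₀ : Type*} [LinearOrderedCommGroupWithZero Γ₀] {ι' : Type*}

theorem prod_zpow_sum_aux (s : Finset ι') {x : Γ₀} (hx : x ≠ 0) (f : ι' → ℤ) :
    ∏ i ∈ s, x ^ f i = x ^ ∑ i ∈ s, f i := by
  classical
  induction s using Finset.induction_on with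
  | empty => simp
  | insert i s hi ih => rw [Finset.prod_insert hi, Finset.sum_insert hi, ih, zpow_add₀ hx]

theorem sum_split (s : Finset ι') (v : ι' → Γ₀) (n : ι' → ℤ) {ρ ρ' : Γ₀} (hlt : ρ < ρ') :
    (∑ P ∈ s, if v P < ρ' then n P else 0) =
      (∑ P ∈ s, if v P ≤ ρ then n P else 0) +
        ∑ P ∈ s, if ρ < v P ∧ v P < ρ' then n P else 0 := by
  rw [← Finset.sum_add_distrib]
  refine Finset.sum_congr rfl fun P _ => ?_
  by_cases h1 : v P ≤ ρ
  · have h2 : v P < ρ' := h1.trans_lt hlt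
    have h3 : ¬ (ρ < v P ∧ v P < ρ') := fun h => absurd h.1 (not_lt.mpr h1)
    rw [if_pos h1, if_pos h2, if_neg h3, add_zero]
  · by_cases h2 : v P < ρ'
    · rw [if_neg h1, if_pos h2, if_pos ⟨not_le.mp h1, h2⟩, zero_add]
    · have h3 : ¬ (ρ < v P ∧ v P < ρ') := fun h => h2 h.2
      rw [if_neg h1, if_neg h2, if_neg h3, add_zero]

theorem ratio_identity (s : Finset ι') (v : ι' → Γ₀) (n : ι' → ℤ) (hv : ∀ P ∈ s, v P ≠ 0)
    {ρ ρ' : Γ₀} (hρ : ρ ≠ 0) (hρ' : ρ' ≠ 0) (hlt : ρ < ρ') (x₀ : Γ₀) (b : ℤ) :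
    x₀ * ρ' ^ (b + ∑ P ∈ s, if v P < ρ' then n P else 0) *
        ∏ P ∈ s, (if v P < ρ' then 1 else v P ^ n P) =
      (x₀ * ρ ^ (b + ∑ P ∈ s, if v P ≤ ρ then n P else 0) *
        ∏ P ∈ s, (if v P ≤ ρ then 1 else v P ^ n P)) *
      (ρ' / ρ) ^ (b + ∑ P ∈ s, if v P ≤ ρ then n P else 0) *
      ∏ P ∈ s, (if ρ < v P ∧ v P < ρ' then (ρ' / v P) ^ n P else 1) := by
  rw [sum_split s v n hlt, ← add_assoc]
  set m := b + ∑ P ∈ s, if v P ≤ ρ then n P else 0 with hm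
  set N := ∑ P ∈ s, if ρ < v P ∧ v P < ρ' then n P else 0 with hN
  have h1 : (∏ P ∈ s, (if v P ≤ ρ then 1 else v P ^ n P)) *
      ∏ P ∈ s, (if ρ < v P ∧ v P < ρ' then (ρ' / v P) ^ n P else 1) =
      (∏ P ∈ s, (if v P < ρ' then 1 else v P ^ n P)) * ρ' ^ N := by
    rw [hN, ← prod_zpow_sum_aux s hρ', ← Finset.prod_mul_distrib, ← Finset.prod_mul_distrib]
    refine Finset.prod_congr rfl fun P hP => ?_
    by_cases h1 : v P ≤ ρ
    · have h2 : v P < ρ' := h1.trans_lt hlt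
      have h3 : ¬ (ρ < v P ∧ v P < ρ') := fun h => absurd h.1 (not_lt.mpr h1)
      rw [if_pos h1, if_pos h2, if_neg h3, if_neg h3, zpow_zero]
    · by_cases h2 : v P < ρ'
      · rw [if_neg h1, if_pos h2, if_pos ⟨not_le.mp h1, h2⟩, if_pos ⟨not_le.mp h1, h2⟩, div_zpow,
          one_mul, mul_div_cancel₀ _ (zpow_ne_zero _ (hv P hP))]
      · have h3 : ¬ (ρ < v P ∧ v P < ρ') := fun h => h2 h.2
        rw [if_neg h1, if_neg h2, if_neg h3, if_neg h3, zpow_zero]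
  have h2 : ρ ^ m * (ρ' / ρ) ^ m = ρ' ^ m := by
    rw [← mul_zpow, mul_div_cancel₀ _ hρ]
  calc x₀ * ρ' ^ (m + N) * ∏ P ∈ s, (if v P < ρ' then 1 else v P ^ n P)
      = x₀ * (ρ ^ m * (ρ' / ρ) ^ m) *
          ((∏ P ∈ s, (if v P < ρ' then 1 else v P ^ n P)) * ρ' ^ N) := by
        rw [h2, zpow_add₀ hρ']
        simp only [mul_assoc, mul_comm, mul_left_comm]
    _ = _ := by
        rw [← h1]
        simp only [mul_assoc, mul_comm, mul_left_comm]

/-- the factor `M` is `Good` when the multiplicities in between are nonnegative -/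
theorem good_mid (s : Finset ι') (v : ι' → Γ₀) (n : ι' → ℤ) (hv : ∀ P ∈ s, v P ≠ 0)
    {ρ ρ' : Γ₀} (hρ : ρ ≠ 0) (hlt : ρ < ρ')
    (hn : ∀ P ∈ s, ρ < v P → v P < ρ' → 0 ≤ n P) :
    Good (ρ' / ρ) (∏ P ∈ s, (if ρ < v P ∧ v P < ρ' then (ρ' / v P) ^ n P else 1))
      (∑ P ∈ s, if ρ < v P ∧ v P < ρ' then n P else 0) := by
  have hR : 1 < ρ' / ρ := (one_lt_div₀ (zero_lt_iff.mpr hρ)).mpr hlt
  refine good_prod hR s _ _ fun P hP => ?_
  by_cases h : ρ < v P ∧ v P < ρ'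
  · rw [if_pos h, if_pos h]
    have hvP : 0 < v P := zero_lt_iff.mpr (hv P hP)
    refine good_zpow ((one_lt_div₀ hvP).mpr h.2) ?_ (hn P hP h.1 h.2)
    exact div_lt_div_of_pos_left (zero_lt_iff.mpr (ne_zero_of_lt h.2)) (zero_lt_iff.mpr hρ) h.1
  · rw [if_neg h, if_neg h]
    exact good_one _

end Fermat.Agent.BR.Fact
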