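import Mathlib
import Fermat.Agent.BR.Fact.Gauge
import Fermat.Agent.BR.Fact.Ratio

/-!
# Program B (BADRED), node B7.CF-b (part 5): matching on a sub-annulus between two gauges

`G'` a gauge component at the gauge `a'` with an inner branch `Q'`, `G` a gauge component at the
gauge `a` with an outer branch `Q`, `|a| < |a'|` (the open sub-annulus `|a| < |u| < |a'|` joins the
two branches).  For `y = c u^b ∏ (u - c_P)^(n_P) ε` (`ε` with the value `1` at both branches)
integral on both components and without poles on the sub-annulus (`0 ≤ n_P` for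
`|a| < |c_P| < |a'|`):

* `two_gauge` : the two residues of `y` are regular at the branches with the **same value**
  (`node_match`), and if this value is nonzero then `y` has **no zero on the sub-annulus**
  (`node_unit`).
-/

set_option autoImplicit false

namespace Fermat.Agent.BR.Fact

open AlgebraicCurve IsLocalRing Fermat.Agent.Red

variable {K : Type*} [Field K] {A : ValuationSubring K} {F : Type*} [Field F] [Algebra K F]

namespace GaugeComp

section ReadOff

variable {L : Type*} [Field L] [Algebra (ResidueField A) L] {u : F} {a : K}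
  {O : ValuationSubring F} {res : O →+* L} (G : GaugeComp A u a O res)

include G

theorem t_ne_zero (hT : G.T ≠ 0) : a⁻¹ • u ≠ 0 :=
  smul_ne_zero (inv_ne_zero G.a_ne) (G.u_ne_zero hT)

theorem nf_mem_iff {Q : Place (ResidueField A) L} (hT : G.T ≠ 0) {κ : K} (m : ℤ) {ε₁ : F}
    (hε : ValAt O res Q ε₁ 1) :
    algebraMap K F κ * (a⁻¹ • u) ^ m * ε₁ ∈ O ↔ κ ∈ A := by
  constructor
  · intro h
    have hinv := (hε.inv G.res_eq_zero_iff one_ne_zero).mem
    have htinv := G.t_zpow_inv_mem hT m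
    have ht0 : (a⁻¹ • u) ^ m ≠ 0 := zpow_ne_zero _ (G.t_ne_zero hT)
    have hε0 : ε₁ ≠ 0 := by
      rintro rfl
      have h1 := hε.res_ne_zero one_ne_zero
      apply h1
      have : (⟨0, hε.mem⟩ : O) = 0 := rfl
      rw [this, map_zero]
    have e : ∀ w : F, w ≠ 0 → algebraMap K F κ =
        (algebraMap K F κ * w * ε₁) * (w⁻¹ * ε₁⁻¹) := by
      intro w hw
      field_simp
    rw [← G.const_mem, e _ ht0]
    exact O.mul_mem _ _ h (O.mul_mem _ _ htinv hinv)
  · intro h
    exact O.mul_mem _ _ (O.mul_mem _ _ (G.mem_of_mem h) (G.t_zpow_mem hT m)) hε.mem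

theorem valAt_nf_of_lt (Q : Place (ResidueField A) L) (hT : G.T ≠ 0) {κ : K}
    (hκ : A.valuation κ < 1) (m : ℤ) {ε₁ : F} (hε : ε₁ ∈ O) :
    ValAt O res Q (algebraMap K F κ * (a⁻¹ • u) ^ m * ε₁) 0 := by
  obtain ⟨h, h0⟩ := G.res_const_of_lt hκ
  have hm := G.t_zpow_mem hT m
  refine ⟨O.mul_mem _ _ (O.mul_mem _ _ h hm) hε, ?_⟩
  have e : (⟨algebraMap K F κ * (a⁻¹ • u) ^ m * ε₁, O.mul_mem _ _ (O.mul_mem _ _ h hm) hε⟩ : O) =
      ⟨algebraMap K F κ, h⟩ * ⟨(a⁻¹ • u) ^ m, hm⟩ * ⟨ε₁, hε⟩ := rfl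
  rw [e, map_mul, map_mul, h0, zero_mul, zero_mul]
  exact isValueAt_zero Q

theorem valAt_nf_zero {Q : Place (ResidueField A) L} {κ : K} (hκ : κ ∈ A) {ε₁ : F}
    (hε : ValAt O res Q ε₁ 1) :
    ValAt O res Q (algebraMap K F κ * (a⁻¹ • u) ^ (0 : ℤ) * ε₁) (residue A ⟨κ, hκ⟩) := by
  rw [zpow_zero, mul_one]
  have := (G.valAt_const Q hκ).mul hε
  rwa [mul_one] at this

theorem valAt_nf_inner_pos {Q : Place (ResidueField A) L} (hQ : 0 < Q.ord G.T) {κ : K}
    (hκ : κ ∈ A) {m : ℤ} (hm : 0 < m) {ε₁ : F} (hε : ValAt O res Q ε₁ 1) :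
    ValAt O res Q (algebraMap K F κ * (a⁻¹ • u) ^ m * ε₁) 0 := by
  have := ((G.valAt_const Q hκ).mul ((G.valAt_t_zero hQ).zpow_zero_val hm)).mul hε
  rwa [mul_zero, zero_mul] at this

theorem valAt_nf_outer_neg {Q : Place (ResidueField A) L} (hQ : Q.ord G.T < 0) {κ : K}
    (hκ : κ ∈ A) {m : ℤ} (hm : m < 0) {ε₁ : F} (hε : ValAt O res Q ε₁ 1) :
    ValAt O res Q (algebraMap K F κ * (a⁻¹ • u) ^ m * ε₁) 0 := by
  have e : (a⁻¹ • u) ^ m = ((a⁻¹ • u)⁻¹) ^ (-m) := by rw [inv_zpow, zpow_neg, inv_inv]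
  rw [e]
  have := ((G.valAt_const Q hκ).mul
    ((G.valAt_t_inv_zero hQ).zpow_zero_val (by omega : 0 < -m))).mul hε
  rwa [mul_zero, zero_mul] at this

end ReadOff

end GaugeComp

section Kappa

variable {ι' : Type*}

theorem valuation_kappa (s : Finset ι') (cc : ι' → K) (n : ι' → ℤ) (p : ι' → Prop)
    [DecidablePred p] (c a : K) (m : ℤ) :
    A.valuation (c * a ^ m * ∏ P ∈ s, if p P then 1 else (-cc P) ^ n P) =
      A.valuation c * A.valuation a ^ m *
        ∏ P ∈ s, if p P then 1 else A.valuation (cc P) ^ n P := by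
  rw [map_mul, map_mul, map_zpow₀, map_prod]
  congr 1
  refine Finset.prod_congr rfl fun P _ => ?_
  split_ifs
  · exact map_one _
  · rw [map_zpow₀, Valuation.map_neg]

end Kappa

section TwoGauge

variable {L' L : Type*} [Field L'] [Algebra (ResidueField A) L'] [Field L]
  [Algebra (ResidueField A) L] {u : F} {a' a : K} {O' O : ValuationSubring F}
  {res' : O' →+* L'} {res : O →+* L}

/-- **Matching and the unit property on the sub-annulus between two gauges.** -/
theorem two_gauge (G' : GaugeComp A u a' O' res') (G : GaugeComp A u a O res)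
    {Q' : Place (ResidueField A) L'} {Q : Place (ResidueField A) L}
    (hQ' : 0 < Q'.ord G'.T) (hQ : Q.ord G.T < 0) (hlt : A.valuation a < A.valuation a')
    {ι' : Type*} (s : Finset ι') (cc : ι' → K) (n : ι' → ℤ) (hcc : ∀ P ∈ s, cc P ≠ 0)
    (hmid : ∀ P ∈ s, A.valuation a < A.valuation (cc P) →
      A.valuation (cc P) < A.valuation a' → 0 ≤ n P)
    (b : ℤ) (c : K) {ε : F} (hε' : ValAt O' res' Q' ε 1) (hε : ValAt O res Q ε 1)
    {y : F} (hy : y = algebraMap K F c * u ^ b *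
      (∏ P ∈ s, (u - algebraMap K F (cc P)) ^ n P) * ε)
    (hy' : y ∈ O') (hyO : y ∈ O) :
    (∃ c₀ : ResidueField A, ValAt O' res' Q' y c₀ ∧ ValAt O res Q y c₀) ∧
      ((∃ c₀ : ResidueField A, c₀ ≠ 0 ∧ ValAt O' res' Q' y c₀) →
        ∀ P ∈ s, A.valuation a < A.valuation (cc P) →
          A.valuation (cc P) < A.valuation a' → n P = 0) := by
  classical
  have hT' := G'.T_ne_zero_of_ord_ne hQ'.ne'
  have hT := G.T_ne_zero_of_ord_ne hQ.ne
  obtain ⟨ε₁', hε₁', hnf'⟩ := G'.inner_nf hQ' s cc n hcc b c hε'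
  obtain ⟨ε₁, hε₁, hnf⟩ := G.outer_nf hQ s cc n b c hε
  rw [← hy] at hnf' hnf
  have hρ : A.valuation a ≠ 0 := (A.valuation.ne_zero_iff).mpr G.a_ne
  have hρ' : A.valuation a' ≠ 0 := (A.valuation.ne_zero_iff).mpr G'.a_ne
  have hv : ∀ P ∈ s, A.valuation (cc P) ≠ 0 := fun P hP => (A.valuation.ne_zero_iff).mpr (hcc P hP)
  have hR : 1 < A.valuation a' / A.valuation a := (one_lt_div₀ (zero_lt_iff.mpr hρ)).mpr hlt
  have hsplit := sum_split s (fun P => A.valuation (cc P)) n hlt
  have hM := good_mid s (fun P => A.valuation (cc P)) n hv hρ hlt hmid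
  have hrel := ratio_identity s (fun P => A.valuation (cc P)) n hv hρ hρ' hlt (A.valuation c) b
  rw [← valuation_kappa, ← valuation_kappa] at hrel
  -- name the exponents
  obtain ⟨m', hm'⟩ : ∃ m' : ℤ,
      m' = b + ∑ P ∈ s, if A.valuation (cc P) < A.valuation a' then n P else 0 := ⟨_, rfl⟩
  obtain ⟨m, hm⟩ : ∃ m : ℤ,
      m = b + ∑ P ∈ s, if A.valuation (cc P) ≤ A.valuation a then n P else 0 := ⟨_, rfl⟩
  obtain ⟨N, hN⟩ : ∃ N : ℤ, N = ∑ P ∈ s,
      if A.valuation a < A.valuation (cc P) ∧ A.valuation (cc P) < A.valuation a' then n P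
      else 0 := ⟨_, rfl⟩
  have hm'N : m' = m + N := by rw [hm', hm, hN, hsplit]; ring
  beta_reduce at hsplit hM hrel
  rw [← hm'] at hnf' hrel
  rw [← hm] at hnf hrel
  rw [← hN] at hM
  -- membership
  have hκ' := (G'.nf_mem_iff hT' m' hε₁').mp (by rw [← hnf']; exact hy')
  have hκ := (G.nf_mem_iff hT m hε₁).mp (by rw [← hnf]; exact hyO)
  have hx' := (A.valuation_le_one_iff _).mpr hκ'
  have hx := (A.valuation_le_one_iff _).mpr hκ
  have hallzero : N = 0 → ∀ P ∈ s, A.valuation a < A.valuation (cc P) →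
      A.valuation (cc P) < A.valuation a' → n P = 0 := by
    intro hN0 P hP h1 h2
    rw [hN] at hN0
    have h3 := (Finset.sum_eq_zero_iff_of_nonneg (fun P hP => by
      split_ifs with h
      · exact hmid P hP h.1 h.2
      · exact le_rfl)).mp hN0 P hP
    rwa [if_pos ⟨h1, h2⟩] at h3
  rcases lt_or_eq_of_le hx' with hx'lt | hx'1
  · -- the residue on the outer component vanishes
    have v' : ValAt O' res' Q' y 0 := by
      rw [hnf']; exact G'.valAt_nf_of_lt Q' hT' hx'lt m' hε₁'.mem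
    refine ⟨?_, ?_⟩
    · rcases lt_or_eq_of_le hx with hxlt | hx1
      · exact ⟨0, v', by rw [hnf]; exact G.valAt_nf_of_lt Q hT hxlt m hε₁.mem⟩
      · have hmneg := slope_a hR hM hrel hx'lt hx1
        exact ⟨0, v', by rw [hnf]; exact G.valAt_nf_outer_neg hQ hκ hmneg hε₁⟩
    · rintro ⟨c₀, hc₀, hv0⟩
      exact absurd (v'.unique hv0).symm hc₀
  · have hm'0 : 0 ≤ m' := by rw [hm'N]; exact slope_b hR hM hrel hx'1 hx
    rcases lt_or_eq_of_le hm'0 with hpos | hzero
    · have v' : ValAt O' res' Q' y 0 := by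
        rw [hnf']; exact G'.valAt_nf_inner_pos hQ' hκ' hpos hε₁'
      refine ⟨?_, ?_⟩
      · rcases lt_or_eq_of_le hx with hxlt | hx1
        · exact ⟨0, v', by rw [hnf]; exact G.valAt_nf_of_lt Q hT hxlt m hε₁.mem⟩
        · have hmneg := slope_c hR hM hrel hx'1 hx1 (by rw [← hm'N]; exact hpos)
          exact ⟨0, v', by rw [hnf]; exact G.valAt_nf_outer_neg hQ hκ hmneg hε₁⟩
      · rintro ⟨c₀, hc₀, hv0⟩
        exact absurd (v'.unique hv0).symm hc₀
    · obtain ⟨-, hN0, hm0⟩ := slope_d hR hM hrel hx'1 hx (by rw [← hm'N]; exact hzero.symm)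
      have hz := hallzero hN0
      refine ⟨?_, fun _ => hz⟩
      -- the two constants agree
      have hκeq : (c * a' ^ m' * ∏ P ∈ s,
          if A.valuation (cc P) < A.valuation a' then 1 else (-cc P) ^ n P) =
          c * a ^ m * ∏ P ∈ s,
            if A.valuation (cc P) ≤ A.valuation a then 1 else (-cc P) ^ n P := by
        rw [← hzero, hm0, zpow_zero, zpow_zero]
        congr 1
        refine Finset.prod_congr rfl fun P hP => ?_
        by_cases h1 : A.valuation (cc P) ≤ A.valuation a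
        · rw [if_pos h1, if_pos (h1.trans_lt hlt)]
        · by_cases h2 : A.valuation (cc P) < A.valuation a'
          · rw [if_neg h1, if_pos h2, hz P hP (not_le.mp h1) h2, zpow_zero]
          · rw [if_neg h1, if_neg h2]
      have v' : ValAt O' res' Q' y (residue A ⟨_, hκ'⟩) := by
        have := G'.valAt_nf_zero hκ' hε₁'
        rw [hzero, ← hnf'] at this
        exact this
      have v0 : ValAt O res Q y (residue A ⟨_, hκ⟩) := by
        have := G.valAt_nf_zero hκ hε₁
        rw [← hm0, ← hnf] at this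
        exact this
      refine ⟨_, v', ?_⟩
      have e : (⟨_, hκ'⟩ : A) = ⟨_, hκ⟩ := Subtype.ext hκeq
      rw [e]
      exact v0

end TwoGauge

end Fermat.Agent.BR.Fact
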