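import Mathlib
import Fermat.Agent.BR.Fact.TwoGauge

/-!
# Program B (BADRED), node B7.CF-b (part 6): matching on a sub-annulus from the factorisation

`T` a set of places of `F / K` (the tube of a node), `u : F` the annulus coordinate, `TU` the
class of tube units.

* `TubeFact T u TU` : the K-level contract on the tube: `u` is regular on `T` with nonzero values,
  `u - u(P)` has a simple zero at `P`, `P ↦ u(P)` is injective on `T`, tube units have no zero or
  pole on `T`, and every `y ≠ 0` factors as `c u^b ∏_{Q ∈ S} (u - u(Q))^(n Q) ε`, `S ⊆ T`,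
  `ε` a tube unit (the fields of `Circle.AnnulusCore` in the shape used here);
* `TubeFact.exists_factor` : the factorisation with `n = ord` on the tube;
* `TubeFact.match_unit` : **`node_match` and `node_unit` on the sub-annulus `|a| < |u| < |a'|`**
  between an inner branch of a gauge component at `a'` and an outer branch of a gauge component
  at `a`, for functions integral on both components and without poles on the sub-annulus.
-/

set_option autoImplicit false

namespace Fermat.Agent.BR.Fact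

open AlgebraicCurve IsLocalRing Fermat.Agent.Red

variable {K : Type*} [Field K] {F : Type*} [Field F] [Algebra K F]

theorem ord_prod_zpow (P : Place K F) {ι : Type*} (s : Finset ι) (f : ι → F) (n : ι → ℤ)
    (hf : ∀ i ∈ s, f i ≠ 0) : P.ord (∏ i ∈ s, f i ^ n i) = ∑ i ∈ s, n i * P.ord (f i) := by
  classical
  induction s using Finset.induction_on with
  | empty => simp
  | insert i s hi ih =>
    have hi0 : f i ^ n i ≠ 0 := zpow_ne_zero _ (hf i (Finset.mem_insert_self i s))
    have hs0 : ∏ j ∈ s, f j ^ n j ≠ 0 :=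
      Finset.prod_ne_zero_iff.mpr fun j hj => zpow_ne_zero _ (hf j (Finset.mem_insert_of_mem hj))
    rw [Finset.prod_insert hi, Finset.sum_insert hi, Place.ord_mul _ hi0 hs0, Place.ord_zpow,
      ih fun j hj => hf j (Finset.mem_insert_of_mem hj)]

/-- The K-level contract on the tube of a node (the shape of `Circle.AnnulusCore`). -/
structure TubeFact (T : Set (Place K F)) (u : F) (TU : F → Prop) : Prop where
  val : ∀ P ∈ T, IsValueAt P u (evalAt P u)
  val_ne : ∀ P ∈ T, evalAt P u ≠ 0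
  simple : ∀ P ∈ T, P.ord (u - algebraMap K F (evalAt P u)) = 1
  inj : ∀ P ∈ T, ∀ P' ∈ T, evalAt P u = evalAt P' u → P = P'
  tu_ord : ∀ ε : F, TU ε → ∀ P ∈ T, P.ord ε = 0
  factor : ∀ y : F, y ≠ 0 → ∃ (S : Finset (Place K F)) (n : Place K F → ℤ) (b : ℤ) (c : K),
    (∀ Q ∈ S, Q ∈ T) ∧ c ≠ 0 ∧
      TU (y * (c • (u ^ b * ∏ Q ∈ S, (u - algebraMap K F (evalAt Q u)) ^ n Q))⁻¹)

namespace TubeFact

variable {T : Set (Place K F)} {u : F} {TU : F → Prop}

theorem sub_ne_zero_of_mem (hT : TubeFact T u TU) {Q : Place K F} (hQ : Q ∈ T) :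
    u - algebraMap K F (evalAt Q u) ≠ 0 := by
  intro h
  have := hT.simple Q hQ
  rw [h, Place.ord_zero] at this
  exact zero_ne_one this

open Classical in
theorem ord_sub (hT : TubeFact T u TU) {P Q : Place K F} (hP : P ∈ T) (hQ : Q ∈ T) :
    P.ord (u - algebraMap K F (evalAt Q u)) = if Q = P then 1 else 0 := by
  split_ifs with h
  · subst h; exact hT.simple Q hQ
  · have hv : IsValueAt P (u - algebraMap K F (evalAt Q u)) (evalAt P u - evalAt Q u) :=
      (hT.val P hP).sub (isValueAt_algebraMap P _)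
    refine hv.ord_eq_zero (sub_ne_zero.mpr fun he => h ?_)
    exact (hT.inj P hP Q hQ he).symm

/-- **The factorisation, with the multiplicities identified with the orders on the tube.** -/
theorem exists_factor (hT : TubeFact T u TU) (hu : u ≠ 0) {y : F} (hy : y ≠ 0) :
    ∃ (S : Finset (Place K F)) (n : Place K F → ℤ) (b : ℤ) (c : K) (ε : F),
      (∀ Q ∈ S, Q ∈ T) ∧ c ≠ 0 ∧ TU ε ∧
      y = algebraMap K F c * u ^ b * (∏ Q ∈ S, (u - algebraMap K F (evalAt Q u)) ^ n Q) * ε ∧
      (∀ P ∈ S, P.ord y = n P) ∧ ∀ P ∈ T, P ∉ S → P.ord y = 0 := by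
  classical
  obtain ⟨S, n, b, c, hS, hc, hε⟩ := hT.factor y hy
  set Pd := ∏ Q ∈ S, (u - algebraMap K F (evalAt Q u)) ^ n Q with hPd
  have hPd0 : Pd ≠ 0 :=
    Finset.prod_ne_zero_iff.mpr fun Q hQ => zpow_ne_zero _ (hT.sub_ne_zero_of_mem (hS Q hQ))
  have hub : u ^ b ≠ 0 := zpow_ne_zero _ hu
  have hcF : algebraMap K F c ≠ 0 := (map_ne_zero _).mpr hc
  have hX : c • (u ^ b * Pd) ≠ 0 := smul_ne_zero hc (mul_ne_zero hub hPd0)
  set ε := y * (c • (u ^ b * Pd))⁻¹ with hεdef
  have hε0 : ε ≠ 0 := mul_ne_zero hy (inv_ne_zero hX)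
  have hyeq : y = algebraMap K F c * u ^ b * Pd * ε := by
    rw [hεdef, Algebra.smul_def]
    rw [Algebra.smul_def] at hX
    field_simp
  have key : ∀ P ∈ T, P.ord y = if P ∈ S then n P else 0 := by
    intro P hP
    have hordu : P.ord u = 0 := (hT.val P hP).ord_eq_zero (hT.val_ne P hP)
    rw [hyeq, Place.ord_mul _ (mul_ne_zero (mul_ne_zero hcF hub) hPd0) hε0,
      Place.ord_mul _ (mul_ne_zero hcF hub) hPd0, Place.ord_mul _ hcF hub,
      Fermat.Agent.X0.Place.ord_algebraMap, Place.ord_zpow, hordu, hT.tu_ord ε hε P hP, hPd,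
      ord_prod_zpow P S _ n fun Q hQ => hT.sub_ne_zero_of_mem (hS Q hQ)]
    rw [Finset.sum_congr rfl fun Q hQ => by rw [hT.ord_sub hP (hS Q hQ)]]
    simp only [mul_ite, mul_one, mul_zero, Finset.sum_ite_eq', zero_add, add_zero]
  refine ⟨S, n, b, c, ε, hS, hc, hε, hyeq, fun P hP => ?_, fun P hP hPS => ?_⟩
  · rw [key P (hS P hP), if_pos hP]
  · rw [key P hP, if_neg hPS]

section Match

variable {A : ValuationSubring K} {L' L : Type*} [Field L'] [Algebra (ResidueField A) L']
  [Field L] [Algebra (ResidueField A) L] {a' a : K} {O' O : ValuationSubring F}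
  {res' : O' →+* L'} {res : O →+* L}

/-- **`node_match` and `node_unit` on the sub-annulus `|a| < |u| < |a'|`.** -/
theorem match_unit (hT : TubeFact T u TU) (G' : GaugeComp A u a' O' res')
    (G : GaugeComp A u a O res) {Q' : Place (ResidueField A) L'} {Q : Place (ResidueField A) L}
    (hQ' : 0 < Q'.ord G'.T) (hQ : Q.ord G.T < 0) (hlt : A.valuation a < A.valuation a')
    (htu' : ∀ ε : F, TU ε → ValAt O' res' Q' ε 1) (htu : ∀ ε : F, TU ε → ValAt O res Q ε 1)
    {y : F} (h₁ : y ∈ O') (h₂ : y ∈ O)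
    (hpole : ∀ P ∈ T, A.valuation a < A.valuation (evalAt P u) →
      A.valuation (evalAt P u) < A.valuation a' → 0 ≤ P.ord y) :
    (∃ c₀ : ResidueField A, IsValueAt Q' (res' ⟨y, h₁⟩) c₀ ∧ IsValueAt Q (res ⟨y, h₂⟩) c₀) ∧
      ((∃ c₀ : ResidueField A, c₀ ≠ 0 ∧ IsValueAt Q' (res' ⟨y, h₁⟩) c₀) →
        ∀ P ∈ T, A.valuation a < A.valuation (evalAt P u) →
          A.valuation (evalAt P u) < A.valuation a' → P.ord y = 0) := by
  classical
  rcases eq_or_ne y 0 with rfl | hy
  · refine ⟨⟨0, ?_, ?_⟩, fun _ P _ _ _ => Place.ord_zero P⟩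
    · have : (⟨0, h₁⟩ : O') = 0 := rfl
      rw [this, map_zero]; exact isValueAt_zero Q'
    · have : (⟨0, h₂⟩ : O) = 0 := rfl
      rw [this, map_zero]; exact isValueAt_zero Q
  · have hu : u ≠ 0 := G.u_ne_zero (G.T_ne_zero_of_ord_ne hQ.ne)
    obtain ⟨S, n, b, c, ε, hS, -, hε, hyeq, hord, hord0⟩ := hT.exists_factor hu hy
    have hmid : ∀ P ∈ S, A.valuation a < A.valuation (evalAt P u) →
        A.valuation (evalAt P u) < A.valuation a' → 0 ≤ n P := by
      intro P hP h1 h2
      have := hpole P (hS P hP) h1 h2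
      rwa [hord P hP] at this
    obtain ⟨⟨c₀, hv', hv⟩, hunit⟩ := two_gauge G' G hQ' hQ hlt S (fun P => evalAt P u) n
      (fun P hP => hT.val_ne P (hS P hP)) hmid b c (htu' ε hε) (htu ε hε) hyeq h₁ h₂
    refine ⟨⟨c₀, hv'.isValueAt h₁, hv.isValueAt h₂⟩, ?_⟩
    rintro ⟨c₁, hc₁, hv₁⟩ P hP h1 h2
    by_cases hPS : P ∈ S
    · rw [hord P hPS]
      exact hunit ⟨c₁, hc₁, ⟨h₁, hv₁⟩⟩ P hPS h1 h2
    · exact hord0 P hP hPS

end Match

end TubeFact

end Fermat.Agent.BR.Fact
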